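import Mathlib.RingTheory.Depth.Rees
import Mathlib.RingTheory.Regular.Free
import Mathlib.RingTheory.Regular.ProjectiveDimension
import Mathlib.Algebra.Category.ModuleCat.Ext.Finite
import Mathlib.RingTheory.LocalRing.Module
import Mathlib.RingTheory.Ideal.Quotient.Noetherian

set_option autoImplicit false

namespace Fermat.Agent.S57

open RingTheory.Sequence CategoryTheory Abelian IsLocalRing Pointwise

universe u

section

variable {A : Type u} [CommRing A] [IsLocalRing A] [IsNoetherianRing A]

set_option backward.isDefEq.respectTransparency false in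
lemma ext_subsingleton_of_quotSMulTop (B N : ModuleCat.{u} A) [Module.Finite A B]
    [Module.Finite A N] (x : A) (hx : x ∈ maximalIdeal A) (reg : IsSMulRegular B x) (j : ℕ)
    (h : ∀ i < j + 1, Subsingleton (Ext (ModuleCat.of A (QuotSMulTop x B)) N i)) :
    ∀ i < j, Subsingleton (Ext B N i) := by
  intro i hi
  let S := B.smulShortComplex x
  have hS : S.ShortExact := reg.smulShortComplex_shortExact
  have zero : Subsingleton (Ext (ModuleCat.of A (QuotSMulTop x B)) N (i + 1)) :=
    h (i + 1) (by omega)
  have exac := Ext.contravariant_sequence_exact₁' hS N i (i + 1) (add_comm 1 i)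
  have epi := exac.epi_f ((@AddCommGrpCat.isZero_of_subsingleton _ zero).eq_zero_of_tgt _)
  have : S.f = x • 𝟙 B := rfl
  simp only [S, this, AddCommGrpCat.epi_iff_surjective, AddCommGrpCat.hom_ofHom] at epi
  by_contra! ntr
  have : x ∈ (Module.annihilator A (Ext B N i)).jacobson :=
    (IsLocalRing.maximalIdeal_le_jacobson _) hx
  absurd Submodule.top_ne_pointwise_smul_of_mem_jacobson_annihilator this
  rw [eq_comm, eq_top_iff]
  intro y hy
  rcases epi y with ⟨z, hz⟩
  simp only [ModuleCat.smulShortComplex, Ext.mk₀_smul,
    Ext.bilinearComp_apply_apply, Ext.smul_comp, Ext.mk₀_id_comp] at hz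
  simpa [← hz] using Submodule.smul_mem_pointwise_smul _ _ ⊤ trivial

omit [IsLocalRing A] [IsNoetherianRing A] in
lemma ext_subsingleton_of_iso {X X' : ModuleCat.{u} A} (e : X ≅ X') (N : ModuleCat.{u} A) (i : ℕ)
    (h : Subsingleton (Ext X N i)) : Subsingleton (Ext X' N i) := by
  have key : ∀ c : Ext X' N i, c = 0 := fun c => by
    have h1 : (Ext.mk₀ e.hom).comp c (zero_add i) = 0 := Subsingleton.elim _ _
    have h2 : c = (Ext.mk₀ e.inv).comp ((Ext.mk₀ e.hom).comp c (zero_add i)) (zero_add i) := by
      rw [Ext.mk₀_comp_mk₀_assoc]; simp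
    rw [h2, h1, Ext.comp_zero]
  exact ⟨fun a b => by rw [key a, key b]⟩

lemma ext_subsingleton_of_quot_ofList (N : ModuleCat.{u} A) [Module.Finite A N] (rs : List A) :
    ∀ (B : ModuleCat.{u} A) [Module.Finite A B] (_ : ∀ r ∈ rs, r ∈ maximalIdeal A)
    (_ : IsWeaklyRegular B rs) (j : ℕ)
    (_ : ∀ i < j + rs.length,
      Subsingleton (Ext (ModuleCat.of A (B ⧸ Ideal.ofList rs • (⊤ : Submodule A B))) N i)),
    ∀ i < j, Subsingleton (Ext B N i) := by
  induction rs with
  | nil =>
    intro B _ mem reg j h i hi
    have e : (B ⧸ Ideal.ofList ([] : List A) • (⊤ : Submodule A B)) ≃ₗ[A] B :=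
      Submodule.quotEquivOfEqBot _ (by simp)
    exact ext_subsingleton_of_iso e.toModuleIso N i (h i (by simpa using hi))
  | cons x rs' ih =>
    intro B _ mem reg j h i hi
    simp only [List.mem_cons, forall_eq_or_imp] at mem
    simp only [isWeaklyRegular_cons_iff] at reg
    have e := Submodule.quotOfListConsSMulTopEquivQuotSMulTopInner B x rs'
    have h' : ∀ i < (j + 1) + rs'.length, Subsingleton (Ext (ModuleCat.of A
        (QuotSMulTop x B ⧸ Ideal.ofList rs' • (⊤ : Submodule A (QuotSMulTop x B)))) N i) := by
      intro i hi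
      exact ext_subsingleton_of_iso e.toModuleIso N i (h i (by simp only [List.length_cons]; omega))
    have := ih (ModuleCat.of A (QuotSMulTop x B)) mem.2 reg.2 (j + 1) h'
    exact ext_subsingleton_of_quotSMulTop B N x mem.1 reg.1 j this i hi

end

lemma isSMulRegular_of_subsingleton_linearMap {A : Type u} [CommRing A] {N : Type u}
    [AddCommGroup N] [Module A N] (x : A)
    (h : Subsingleton (QuotSMulTop x A →ₗ[A] N)) : IsSMulRegular N x := by
  rw [isSMulRegular_iff_right_eq_zero_of_smul]
  intro n hn
  let f : A →ₗ[A] N := LinearMap.toSpanSingleton A N n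
  have hle : x • (⊤ : Submodule A A) ≤ LinearMap.ker f := by
    rintro _ ⟨a, -, rfl⟩
    simp only [LinearMap.mem_ker, f]
    change (x • a) • n = 0
    rw [smul_eq_mul, mul_comm, mul_smul, hn, smul_zero]
  let g : QuotSMulTop x A →ₗ[A] N := Submodule.liftQ _ f hle
  have hg : g = 0 := Subsingleton.elim _ _
  have : g (Submodule.mkQ _ 1) = n := by
    change f 1 = n
    simp [f]
  rw [← this, hg]; rfl

theorem free_of_isWeaklyRegular (n : ℕ) : ∀ (A : Type u) [CommRing A] [IsLocalRing A]
    [IsNoetherianRing A] (xs : List A) (_ : xs.length = n) (_ : IsWeaklyRegular A xs)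
    (_ : Ideal.ofList xs = maximalIdeal A)
    (N : Type u) [AddCommGroup N] [Module A N] [Module.Finite A N]
    (ys : List A) (_ : ∀ y ∈ ys, y ∈ maximalIdeal A) (_ : IsWeaklyRegular N ys)
    (_ : ys.length = n), Module.Free A N := by
  induction n with
  | zero =>
    intro A _ _ _ xs hlen hx hm N _ _ _ ys hys hy hylen
    have : xs = [] := List.length_eq_zero_iff.mp hlen
    subst this
    rw [Ideal.ofList_nil] at hm
    have hf : IsField A := IsLocalRing.isField_iff_maximalIdeal_eq.mpr hm.symm
    let := hf.toField
    exact Module.Free.of_divisionRing A N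
  | succ n ih =>
    intro A _ _ _ xs hlen hx hm N _ _ _ ys hys hy hylen
    by_cases hN : Subsingleton N
    · exact Module.Free.of_subsingleton A N
    rw [not_subsingleton_iff_nontrivial] at hN
    match xs, hlen, hx, hm with
    | x :: xs', hlen, hx, hm =>
      simp only [List.length_cons, Nat.add_right_cancel_iff] at hlen
      have hxm : ∀ r ∈ x :: xs', r ∈ maximalIdeal A := fun r hr => by
        rw [← hm]; exact Ideal.subset_span hr
      simp only [List.mem_cons, forall_eq_or_imp] at hxm
      rw [isWeaklyRegular_cons_iff] at hx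
      have hyreg : IsRegular N ys := IsRegular.of_isWeaklyRegular_of_mem_maximalIdeal N hys hy
      have smul_lt : maximalIdeal A • (⊤ : Submodule A N) < ⊤ :=
        (Submodule.top_ne_ideal_smul_of_le_jacobson_annihilator
          (IsLocalRing.maximalIdeal_le_jacobson _)).symm.lt_top
      -- step 3: Ext vanishing against the quotient of `A` by the parameters
      let K : ModuleCat.{u} A := ModuleCat.of A
        (QuotSMulTop x A ⧸ Ideal.ofList xs' • (⊤ : Submodule A (QuotSMulTop x A)))
      have Ksupp : Module.support A K ⊆ PrimeSpectrum.zeroLocus (maximalIdeal A) := by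
        rw [Module.support_eq_zeroLocus]
        apply PrimeSpectrum.zeroLocus_anti_mono
        intro r hr
        rw [SetLike.mem_coe, Module.mem_annihilator]
        intro k
        let e := Submodule.quotOfListConsSMulTopEquivQuotSMulTopInner A x xs'
        obtain ⟨k', rfl⟩ := e.surjective k
        obtain ⟨a, rfl⟩ := Submodule.mkQ_surjective _ k'
        rw [← map_smul, ← map_smul, Submodule.mkQ_apply,
          (Submodule.Quotient.mk_eq_zero _).mpr, map_zero]
        rw [← hm] at hr
        exact Submodule.smul_mem_smul hr trivial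
      have hK : ∀ i < ys.length, Subsingleton (Ext K (ModuleCat.of A N) i) :=
        ModuleCat.subsingleton_ext_of_exists_isRegular (maximalIdeal A) K Ksupp
          (ModuleCat.of A N) smul_lt ys hys hyreg
      -- step 4: `x` is `N`-regular
      have hreg_x : IsSMulRegular N x := by
        apply isSMulRegular_of_subsingleton_linearMap
        have h0 : Subsingleton (Ext (ModuleCat.of A (QuotSMulTop x A)) (ModuleCat.of A N) 0) :=
          ext_subsingleton_of_quot_ofList (ModuleCat.of A N) xs'
            (ModuleCat.of A (QuotSMulTop x A)) hxm.2 hx.2 1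
            (fun i hi => hK i (by omega)) 0 (by omega)
        have : Subsingleton (ModuleCat.of A (QuotSMulTop x A) ⟶ ModuleCat.of A N) :=
          Ext.addEquiv₀.subsingleton_congr.mp h0
        exact (ModuleCat.homAddEquiv (M := ModuleCat.of A (QuotSMulTop x A))
          (N := ModuleCat.of A N)).symm.subsingleton
      -- step 5: a regular sequence of length `n` on `N / x N`
      have hN' : Nontrivial (QuotSMulTop x N) := nontrivial_quotSMulTop_of_mem_maximalIdeal N hxm.1
      have smul_lt' : maximalIdeal A • (⊤ : Submodule A (QuotSMulTop x N)) < ⊤ :=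
        (Submodule.top_ne_ideal_smul_of_le_jacobson_annihilator
          (IsLocalRing.maximalIdeal_le_jacobson _)).symm.lt_top
      have tfae := ModuleCat.exists_isRegular_tfae (maximalIdeal A) (n + 1) (ModuleCat.of A N) smul_lt
      have h2 : ∀ i < n + 1, Subsingleton (Ext (ModuleCat.of A
          (Shrink.{u} (A ⧸ maximalIdeal A))) (ModuleCat.of A N) i) :=
        (tfae.out 3 1).mp (by exact ⟨ys, hylen, hys, hyreg⟩)
      have h2' : ∀ i < n, Subsingleton (Ext (ModuleCat.of A
          (Shrink.{u} (A ⧸ maximalIdeal A))) (ModuleCat.of A (QuotSMulTop x N)) i) := by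
        intro i hi
        have zero1 := AddCommGrpCat.isZero_of_iff_subsingleton.mpr (h2 i (by omega))
        have zero2 := AddCommGrpCat.isZero_of_iff_subsingleton.mpr (h2 (i + 1) (by omega))
        exact AddCommGrpCat.subsingleton_of_isZero <| ShortComplex.Exact.isZero_of_both_zeros
          ((Ext.covariant_sequence_exact₃' _
            (IsSMulRegular.smulShortComplex_shortExact (M := ModuleCat.of A N) hreg_x)) i (i + 1) rfl)
          (zero1.eq_zero_of_src _) (zero2.eq_zero_of_tgt _)
      have tfae' := ModuleCat.exists_isRegular_tfae (maximalIdeal A) n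
        (ModuleCat.of A (QuotSMulTop x N)) smul_lt'
      obtain ⟨rs, rslen, rsmem, rsreg⟩ := (tfae'.out 1 3).mp h2'
      -- step 6: pass to the quotient ring
      have hxne : Ideal.span {x} ≠ ⊤ := by
        rw [Ne, Ideal.span_singleton_eq_top]
        exact hxm.1
      have : Nontrivial (A ⧸ Ideal.span {x}) := Ideal.Quotient.nontrivial_iff.mpr hxne
      have : IsLocalRing (A ⧸ Ideal.span {x}) :=
        IsLocalRing.of_surjective' (Ideal.Quotient.mk _) Ideal.Quotient.mk_surjective
      have hmap : (maximalIdeal A).map (Ideal.Quotient.mk (Ideal.span {x})) =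
          maximalIdeal (A ⧸ Ideal.span {x}) :=
        IsLocalRing.map_maximalIdeal_of_surjective _ Ideal.Quotient.mk_surjective
      have hm' : Ideal.ofList (xs'.map (Ideal.Quotient.mk (Ideal.span {x}))) =
          maximalIdeal (A ⧸ Ideal.span {x}) := by
        rw [← Ideal.map_ofList, ← hmap, ← hm, Ideal.ofList_cons, Ideal.map_sup,
          Ideal.map_quotient_self, bot_sup_eq]
      have hx' : IsWeaklyRegular (A ⧸ Ideal.span {x})
          (xs'.map (Ideal.Quotient.mk (Ideal.span {x}))) := by
        have heq : x • (⊤ : Submodule A A) = Ideal.span {x} := by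
          rw [← Submodule.ideal_span_singleton_smul]
          exact Ideal.mul_top _
        let e0 : QuotSMulTop x A ≃ₗ[A] (A ⧸ Ideal.span {x}) := Submodule.quotEquivOfEq _ _ heq
        refine (e0.toAddEquiv.isWeaklyRegular_congr ?_).mp hx.2
        refine List.forall₂_map_right_iff.mpr <| List.forall₂_same.mpr fun r _ y => ?_
        change e0 (r • y) = _
        rw [map_smul]
        rfl
      have : Module.Finite (A ⧸ Ideal.span {x}) (QuotSMulTop x N) :=
        Module.Finite.of_restrictScalars_finite A _ _
      have hy' : IsWeaklyRegular (QuotSMulTop x N)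
          (rs.map (Ideal.Quotient.mk (Ideal.span {x}))) :=
        (isWeaklyRegular_map_algebraMap_iff (A ⧸ Ideal.span {x}) (QuotSMulTop x N) rs).mpr
          rsreg.toIsWeaklyRegular
      have hys' : ∀ r ∈ rs.map (Ideal.Quotient.mk (Ideal.span {x})),
          r ∈ maximalIdeal (A ⧸ Ideal.span {x}) := by
        intro r hr
        obtain ⟨r0, hr0, rfl⟩ := List.mem_map.mp hr
        rw [← hmap]
        exact Ideal.mem_map_of_mem _ (rsmem r0 hr0)
      have hfree := ih (A ⧸ Ideal.span {x}) (xs'.map (Ideal.Quotient.mk (Ideal.span {x})))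
        (by simp [hlen]) hx' hm' (QuotSMulTop x N) (rs.map (Ideal.Quotient.mk (Ideal.span {x})))
        hys' hy' (by simp [rslen])
      have hjac : x ∈ (⊥ : Ideal A).jacobson := by
        rw [IsLocalRing.jacobson_eq_maximalIdeal ⊥ bot_ne_top]
        exact hxm.1
      have := Module.finitePresentation_of_finite A N
      exact (Module.free_quotSMulTop_iff_free A N hjac hreg_x).mp hfree

end Fermat.Agent.S57
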