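import Mathlib.RingTheory.MvPowerSeries.Basic
import Mathlib.RingTheory.MvPowerSeries.Inverse
import Mathlib.RingTheory.MvPowerSeries.Equiv
import Mathlib.RingTheory.MvPowerSeries.NoZeroDivisors
import Mathlib.RingTheory.Regular.RegularSequence
import Mathlib.RingTheory.DiscreteValuationRing.Basic

set_option autoImplicit false

namespace Fermat.Agent.S57

open MvPowerSeries RingTheory.Sequence

section

variable {σ : Type*} {R : Type*} [CommRing R]

/-- Power series all of whose monomials involve a variable from the list `l`. -/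
def varIdeal (R : Type*) [CommRing R] (l : List σ) : Ideal (MvPowerSeries σ R) where
  carrier := {f | ∀ d : σ →₀ ℕ, (∀ i ∈ l, d i = 0) → coeff d f = 0}
  add_mem' := by
    intro f g hf hg d hd
    rw [map_add, hf d hd, hg d hd, add_zero]
  zero_mem' := by intro d _; simp
  smul_mem' := by
    intro c f hf d hd
    classical
    rw [smul_eq_mul, coeff_mul]
    apply Finset.sum_eq_zero
    rintro ⟨a, b⟩ hab
    rw [Finset.mem_antidiagonal] at hab
    have hb : ∀ i ∈ l, b i = 0 := fun i hi => by
      have h1 := hd i hi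
      rw [← hab] at h1
      simp only [Finsupp.coe_add, Pi.add_apply, Nat.add_eq_zero_iff] at h1
      exact h1.2
    rw [hf b hb, mul_zero]

lemma mem_varIdeal {l : List σ} {f : MvPowerSeries σ R} :
    f ∈ varIdeal R l ↔ ∀ d : σ →₀ ℕ, (∀ i ∈ l, d i = 0) → coeff d f = 0 := Iff.rfl

lemma varIdeal_nil : varIdeal R ([] : List σ) = ⊥ := by
  rw [eq_bot_iff]
  intro f hf
  rw [Ideal.mem_bot]
  ext d
  simpa using hf d (by simp)

lemma varIdeal_append_singleton (l : List σ) (s : σ) :
    varIdeal R (l ++ [s]) = varIdeal R l ⊔ Ideal.span {X s} := by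
  classical
  apply le_antisymm
  · intro f hf
    let h : MvPowerSeries σ R := fun d => if d s = 0 then coeff d f else 0
    have hh : h ∈ varIdeal R l := by
      intro d hd
      change (if d s = 0 then coeff d f else 0) = 0
      split_ifs with hs
      · refine hf d (fun i hi => ?_)
        rcases List.mem_append.mp hi with hi | hi
        · exact hd i hi
        · rw [List.mem_singleton] at hi
          rw [hi]; exact hs
      · rfl
    have hdvd : X s ∣ f - h := by
      rw [X_dvd_iff]
      intro m hm
      rw [map_sub]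
      change coeff m f - (if m s = 0 then coeff m f else 0) = 0
      rw [if_pos hm, sub_self]
    have hfh : f = h + (f - h) := by ring
    rw [hfh]
    exact Ideal.add_mem _ (Ideal.mem_sup_left hh)
      (Ideal.mem_sup_right (Ideal.mem_span_singleton.mpr hdvd))
  · rw [sup_le_iff]
    constructor
    · intro f hf d hd
      exact hf d (fun i hi => hd i (List.mem_append_left _ hi))
    · rw [Ideal.span_singleton_le_iff_mem]
      intro d hd
      have hds : d s = 0 := hd s (by simp)
      rw [coeff_X, if_neg]
      rintro rfl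
      simp at hds

lemma ofList_map_X (l : List σ) :
    Ideal.ofList (l.map (X (R := R))) = varIdeal R l := by
  induction l using List.reverseRecOn with
  | nil => simp [varIdeal_nil]
  | append_singleton l s ih =>
    rw [List.map_append, Ideal.ofList_append, ih, varIdeal_append_singleton]
    simp

lemma mem_varIdeal_of_X_mul_mem {l : List σ} {s : σ} (hs : s ∉ l) {f : MvPowerSeries σ R}
    (h : X s * f ∈ varIdeal R l) : f ∈ varIdeal R l := by
  classical
  intro d hd
  have h1 := h (Finsupp.single s 1 + d) (by
    intro i hi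
    have his : s ≠ i := fun e => hs (e ▸ hi)
    simp [hd i hi, his])
  rwa [X_def, coeff_add_monomial_mul, one_mul] at h1

lemma isWeaklyRegular_map_X (l : List σ) (hl : l.Nodup) :
    IsWeaklyRegular (MvPowerSeries σ R) (l.map (X (R := R))) := by
  induction l using List.reverseRecOn with
  | nil => simp
  | append_singleton l s ih =>
    have hl' := List.nodup_append.mp hl
    rw [List.map_append, isWeaklyRegular_append_iff]
    refine ⟨ih hl'.1, ?_⟩
    rw [List.map_singleton, isWeaklyRegular_singleton_iff,
      isSMulRegular_quotient_iff_mem_of_smul_mem]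
    have hs : s ∉ l := fun hsl => hl'.2.2 s hsl s (by simp) rfl
    have heq : (Ideal.ofList (l.map (X (R := R))) • ⊤ : Submodule (MvPowerSeries σ R)
        (MvPowerSeries σ R)) = varIdeal R l := by
      rw [ofList_map_X]; exact Ideal.mul_top _
    rw [heq]
    intro f hf
    exact mem_varIdeal_of_X_mul_mem hs hf

end

section

open IsLocalRing

variable {𝒪 : Type*} [CommRing 𝒪] (r : ℕ)

/-- The regular system of parameters `X₀, …, X_{r-1}, ϖ` of `𝒪⟦X₀, …, X_{r-1}⟧`. -/
noncomputable def paramList (ϖ : 𝒪) : List (MvPowerSeries (Fin r) 𝒪) :=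
  (List.finRange r).map (X (R := 𝒪)) ++ [C ϖ]

lemma mem_varIdeal_finRange {f : MvPowerSeries (Fin r) 𝒪} :
    f ∈ varIdeal 𝒪 (List.finRange r) ↔ constantCoeff f = 0 := by
  rw [mem_varIdeal, ← coeff_zero_eq_constantCoeff_apply]
  constructor
  · intro h
    exact h 0 (by simp)
  · intro h d hd
    have : d = 0 := by
      ext i
      exact hd i (List.mem_finRange i)
    rw [this, h]

lemma isWeaklyRegular_paramList [IsDomain 𝒪] {ϖ : 𝒪} (hϖ0 : ϖ ≠ 0) :
    IsWeaklyRegular (MvPowerSeries (Fin r) 𝒪) (paramList r ϖ) := by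
  rw [paramList, isWeaklyRegular_append_iff]
  refine ⟨isWeaklyRegular_map_X _ (List.nodup_finRange r), ?_⟩
  rw [isWeaklyRegular_singleton_iff, isSMulRegular_quotient_iff_mem_of_smul_mem]
  have heq : (Ideal.ofList ((List.finRange r).map (X (R := 𝒪))) • ⊤ :
      Submodule (MvPowerSeries (Fin r) 𝒪) (MvPowerSeries (Fin r) 𝒪)) =
      varIdeal 𝒪 (List.finRange r) := by
    rw [ofList_map_X]; exact Ideal.mul_top _
  rw [heq]
  intro f hf
  change C ϖ * f ∈ varIdeal 𝒪 (List.finRange r) at hf
  change f ∈ varIdeal 𝒪 (List.finRange r)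
  rw [mem_varIdeal_finRange] at hf ⊢
  rw [map_mul, constantCoeff_C] at hf
  exact (mul_eq_zero.mp hf).resolve_left hϖ0

lemma ofList_paramList [IsLocalRing 𝒪] {ϖ : 𝒪} (hϖ : maximalIdeal 𝒪 = Ideal.span {ϖ}) :
    Ideal.ofList (paramList r ϖ) = maximalIdeal (MvPowerSeries (Fin r) 𝒪) := by
  rw [paramList, Ideal.ofList_append, ofList_map_X, Ideal.ofList_singleton]
  have hnonunit : ¬ IsUnit ϖ := by
    have : ϖ ∈ maximalIdeal 𝒪 := by rw [hϖ]; exact Ideal.mem_span_singleton_self ϖ
    exact this
  apply le_antisymm
  · rw [sup_le_iff]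
    constructor
    · intro f hf
      rw [mem_varIdeal_finRange] at hf
      rw [mem_maximalIdeal, mem_nonunits_iff, MvPowerSeries.isUnit_iff_constantCoeff, hf]
      exact not_isUnit_zero
    · rw [Ideal.span_singleton_le_iff_mem, mem_maximalIdeal, mem_nonunits_iff,
        MvPowerSeries.isUnit_iff_constantCoeff, constantCoeff_C]
      exact hnonunit
  · intro f hf
    rw [mem_maximalIdeal, mem_nonunits_iff, MvPowerSeries.isUnit_iff_constantCoeff] at hf
    have hc : constantCoeff f ∈ maximalIdeal 𝒪 := hf
    rw [hϖ, Ideal.mem_span_singleton'] at hc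
    obtain ⟨u, hu⟩ := hc
    have hfh : f = (f - C (constantCoeff f)) + C u * C ϖ := by
      rw [← map_mul, hu]; ring
    rw [hfh]
    refine Ideal.add_mem _ (Ideal.mem_sup_left ?_)
      (Ideal.mem_sup_right (Ideal.mul_mem_left _ _ (Ideal.mem_span_singleton_self _)))
    rw [mem_varIdeal_finRange, map_sub, constantCoeff_C, sub_self]

end

end Fermat.Agent.S57
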